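/-
S25 package ATLAS, sub-package DIV, part C (stage 3), helper4190.
Mathlib-only module-level tools: a family `v : Fin n → P` in a finite projective module `P`
over any commutative ring `R`:
* being a basis after base change to a field-valued point spreads to a basic open
  neighbourhood (`exists_spread_basis`), in the form "for every `R`-algebra inverting `a`";
* being a basis at one field-valued point over every prime implies being a basis
  (`bijective_of_forall_fieldPt`).
The first lemmas of the file (`fieldPt`, `nontrivial_field_tensor_iff'`,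
`finrank_field_tensor_eq_rankAtStalk'`, `span_one_tmul_eq_top_iff'`) follow the toolkit of
helper9251 (`ATLAS/Open9251/Toolkit.lean`), re-proved here under fresh names.
-/
import Mathlib

set_option autoImplicit false

namespace Fermat.Agent.S25.ATLAS.DIV.H4190

open TensorProduct

section Mod

variable {R : Type*} [CommRing R]

/-- The prime of `R` cut out by a field-valued point. -/
def fieldPt (R : Type*) [CommRing R] (K : Type*) [Field K] [Algebra R K] : PrimeSpectrum R :=
  ⟨RingHom.ker (algebraMap R K), RingHom.ker_isPrime _⟩

theorem fieldPt_asIdeal (K : Type*) [Field K] [Algebra R K] :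
    (fieldPt R K).asIdeal = RingHom.ker (algebraMap R K) := rfl

variable (M : Type*) [AddCommGroup M] [Module R M]

/-- For a finite module and a field-valued point `R → K`: the fibre `K ⊗ M` is nonzero iff
the corresponding prime lies in the support. -/
theorem nontrivial_field_tensor_iff' [Module.Finite R M] (K : Type*) [Field K] [Algebra R K] :
    Nontrivial (K ⊗[R] M) ↔ fieldPt R K ∈ Module.support R M := by
  set p : PrimeSpectrum R := fieldPt R K with hp
  have h2 : p.asIdeal.primeCompl ≤ (IsUnit.submonoid K).comap (algebraMap R K) := by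
    intro x hx
    simp only [Submonoid.mem_comap, IsUnit.mem_submonoid_iff]
    rw [isUnit_iff_ne_zero]
    exact fun h => hx h
  let φ : p.asIdeal.ResidueField →+* K :=
    Ideal.ResidueField.lift p.asIdeal (algebraMap R K) (le_refl _) h2
  have hφ : ∀ x : R, φ (algebraMap R _ x) = algebraMap R K x := fun x =>
    Ideal.ResidueField.lift_algebraMap p.asIdeal (algebraMap R K) (le_refl _) h2 x
  let _ : Algebra p.asIdeal.ResidueField K := φ.toAlgebra
  have : IsScalarTower R p.asIdeal.ResidueField K :=
    IsScalarTower.of_algebraMap_eq (fun x => (hφ x).symm)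
  let e := (AlgebraTensorModule.cancelBaseChange R p.asIdeal.ResidueField K K M).symm
  rw [e.nontrivial_congr, Module.mem_support_iff_nontrivial_residueField_tensorProduct]
  exact Module.FaithfullyFlat.nontrivial_tensorProduct_iff_right _ _

/-- Fibre dimension of a finite flat module at a field-valued point is the rank at the
corresponding prime. -/
theorem finrank_field_tensor_eq_rankAtStalk' [Module.Finite R M] [Module.Flat R M]
    (K : Type*) [Field K] [Algebra R K] :
    Module.finrank K (K ⊗[R] M) = Module.rankAtStalk M (fieldPt R K) := by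
  have h1 := Module.rankAtStalk_baseChange (R := R) (M := M) (S := K) (⊥ : PrimeSpectrum K)
  have h2 : Module.rankAtStalk (R := K) (K ⊗[R] M) (⊥ : PrimeSpectrum K) =
      Module.finrank K (K ⊗[R] M) := by
    rw [Module.rankAtStalk_eq_finrank_of_free]
    rfl
  rw [← h2, h1]
  rfl

variable {M}

/-- Right exactness: a family spans after base change iff the base change of the cokernel
vanishes. -/
theorem span_one_tmul_eq_top_iff' {ι : Type*} (v : ι → M) (A : Type*) [CommRing A]
    [Algebra R A] :
    Submodule.span A (Set.range fun i => (1 : A) ⊗ₜ[R] v i) = ⊤ ↔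
      Subsingleton (A ⊗[R] (M ⧸ Submodule.span R (Set.range v))) := by
  set p := Submodule.span R (Set.range v) with hp
  have hspan : Submodule.span A (Set.range fun i => (1 : A) ⊗ₜ[R] v i) = p.baseChange A := by
    rw [hp, Submodule.baseChange_span, ← Set.range_comp]
    rfl
  rw [hspan]
  have hker : ∀ x : A ⊗[R] M, x ∈ p.baseChange A ↔ (LinearMap.lTensor A p.mkQ) x = 0 := by
    intro x
    rw [← LinearMap.mem_ker, lTensor_mkQ]
    simp [Submodule.baseChange, LinearMap.mem_range, LinearMap.baseChange_eq_ltensor]
  have hsurj := LinearMap.lTensor_surjective A (Submodule.mkQ_surjective p)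
  constructor
  · intro h
    refine ⟨fun a b => ?_⟩
    obtain ⟨a', rfl⟩ := hsurj a
    obtain ⟨b', rfl⟩ := hsurj b
    rw [(hker a').1 (h ▸ Submodule.mem_top), (hker b').1 (h ▸ Submodule.mem_top)]
  · intro h
    rw [eq_top_iff]
    intro x _
    exact (hker x).2 (Subsingleton.elim _ _)

/-- If `r` kills `M` and becomes a unit in `A`, then `A ⊗ M = 0`. -/
theorem subsingleton_tensor_of_isUnit_of_smul_eq_zero' (A : Type*) [CommRing A] [Algebra R A]
    {r : R} (hr : IsUnit (algebraMap R A r)) (h : ∀ m : M, r • m = 0) :
    Subsingleton (A ⊗[R] M) := by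
  refine ⟨fun x y => ?_⟩
  have key : ∀ z : A ⊗[R] M, z = 0 := by
    intro z
    induction z using TensorProduct.induction_on with
    | zero => rfl
    | tmul a m =>
      obtain ⟨u, hu⟩ := hr
      have : a = r • (a * ↑u⁻¹) := by
        rw [Algebra.smul_def, ← hu, mul_comm, mul_assoc, Units.inv_mul, mul_one]
      rw [this, smul_tmul, h, tmul_zero]
    | add x y hx hy => rw [hx, hy, add_zero]
  rw [key x, key y]

/-- Bijectivity of the linear combination map = being a basis. -/
theorem bijective_linearCombination_iff_basis {n : ℕ} (v : Fin n → M) :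
    Function.Bijective (Fintype.linearCombination R v) ↔
      LinearIndependent R v ∧ Submodule.span R (Set.range v) = ⊤ := by
  rw [linearIndependent_iff_injective_fintypeLinearCombination, ← Fintype.range_linearCombination,
    LinearMap.range_eq_top]
  exact Iff.rfl

/-- A basis stays a basis after any base change. -/
theorem bijective_linearCombination_one_tmul {n : ℕ} (v : Fin n → M)
    (h : Function.Bijective (Fintype.linearCombination R v)) (A : Type*) [CommRing A]
    [Algebra R A] :
    Function.Bijective (Fintype.linearCombination A (fun j => (1 : A) ⊗ₜ[R] v j)) := by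
  obtain ⟨hli, hsp⟩ := (bijective_linearCombination_iff_basis v).1 h
  let B : Module.Basis (Fin n) R M := Module.Basis.mk hli (by rw [hsp])
  have hB : ∀ j, B j = v j := fun j => Module.Basis.mk_apply hli _ j
  have hfun : (fun j => (1 : A) ⊗ₜ[R] v j) = ⇑(B.baseChange A) := by
    funext j
    rw [Module.Basis.baseChange_apply, hB]
  rw [hfun, bijective_linearCombination_iff_basis]
  exact ⟨(B.baseChange A).linearIndependent, (B.baseChange A).span_eq⟩

/-- From a spanning family of a finite-dimensional vector space one can extract a basis,
indexed by `Fin (finrank)`. -/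
theorem exists_fin_basis_of_span_range_eq_top' {κ V : Type*} [Field κ] [AddCommGroup V]
    [Module κ V] [FiniteDimensional κ V] {α : Type*} (ι : α → V)
    (hspan : Submodule.span κ (Set.range ι) = ⊤) {n : ℕ} (hn : Module.finrank κ V = n) :
    ∃ b : Fin n → α, LinearIndependent κ (ι ∘ b) ∧
      Submodule.span κ (Set.range (ι ∘ b)) = ⊤ := by
  obtain ⟨b, hbs, hspan', hli⟩ := exists_linearIndependent κ (Set.range ι)
  have hb_top : Submodule.span κ (Set.range (Subtype.val : b → V)) = ⊤ := by
    rw [Subtype.range_coe, hspan', hspan]
  let B : Module.Basis b κ V := Module.Basis.mk hli (by rw [hb_top])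
  have : Fintype b := FiniteDimensional.fintypeBasisIndex B
  have hcard : Fintype.card b = n := by rw [← hn, Module.finrank_eq_card_basis B]
  let e : Fin n ≃ b := (Fintype.equivFinOfCardEq hcard).symm
  choose f hf using (fun x : b => hbs x.2)
  have hcomp : ι ∘ (f ∘ e) = (Subtype.val : b → V) ∘ e := by
    ext i
    exact hf (e i)
  refine ⟨f ∘ e, ?_, ?_⟩
  · rw [hcomp]
    exact hli.comp _ e.injective
  · rw [hcomp, Set.range_comp, e.surjective.range_eq, Set.image_univ, hb_top]

/-- A family of `n` elements which is a basis after base change to `A` gives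
`finrank = n` when `A` is a field. -/
theorem finrank_of_bijective_linearCombination {n : ℕ} (v : Fin n → M) (K : Type*) [Field K]
    [Algebra R K]
    (h : Function.Bijective (Fintype.linearCombination K (fun i => (1 : K) ⊗ₜ[R] v i))) :
    Module.finrank K (K ⊗[R] M) = n := by
  have e := LinearEquiv.ofBijective _ h
  rw [← e.finrank_eq]
  simp

/-- **Spreading out a basis.**  `P` finite projective over `R`, `v : Fin n → P`.  If `1 ⊗ v` is
a basis of the fibre `K ⊗ P` at a field-valued point, then there is `a ∈ R`, nonzero at the
point, such that `1 ⊗ v` is a basis of `A ⊗ P` for every `R`-algebra `A` in which `a` is a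
unit. -/
theorem exists_spread_basis {P : Type*} [AddCommGroup P] [Module R P] [Module.Finite R P]
    [Module.Projective R P] {n : ℕ} (v : Fin n → P) (K : Type*) [Field K] [Algebra R K]
    (h : Function.Bijective (Fintype.linearCombination K (fun i => (1 : K) ⊗ₜ[R] v i))) :
    ∃ a : R, algebraMap R K a ≠ 0 ∧ ∀ (A : Type*) [CommRing A] [Algebra R A],
      IsUnit (algebraMap R A a) →
        Function.Bijective (Fintype.linearCombination A (fun i => (1 : A) ⊗ₜ[R] v i)) := by
  have hfp : Module.FinitePresentation R P := Module.finitePresentation_of_projective R P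
  -- rank `n` near the point
  have hrk : Module.rankAtStalk P (fieldPt R K) = n := by
    rw [← finrank_field_tensor_eq_rankAtStalk', finrank_of_bijective_linearCombination v K h]
  have hlc := Module.isLocallyConstant_rankAtStalk (R := R) (M := P)
  have hopen := hlc.isOpen_fiber n
  have hmem0 : fieldPt R K ∈ {x | Module.rankAtStalk P x = n} := hrk
  obtain ⟨_, ⟨a₁, rfl⟩, hmem, hsub⟩ :=
    PrimeSpectrum.isTopologicalBasis_basic_opens.exists_subset_of_mem_open hmem0 hopen
  -- the cokernel is killed near the point
  have hspanK : Submodule.span K (Set.range fun i => (1 : K) ⊗ₜ[R] v i) = ⊤ := by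
    rw [← Fintype.range_linearCombination, LinearMap.range_eq_top]
    exact h.2
  have hsub0 := (span_one_tmul_eq_top_iff' v K).1 hspanK
  have hp : fieldPt R K ∉ Module.support R (P ⧸ Submodule.span R (Set.range v)) := by
    rw [← nontrivial_field_tensor_iff']
    exact not_nontrivial_iff_subsingleton.2 hsub0
  rw [Module.mem_support_iff_of_finite, SetLike.not_le_iff_exists] at hp
  obtain ⟨a₂, ha₂, ha₂p⟩ := hp
  have hkill : ∀ m : P ⧸ Submodule.span R (Set.range v), a₂ • m = 0 :=
    fun m => Module.mem_annihilator.1 ha₂ m
  refine ⟨a₁ * a₂, ?_, ?_⟩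
  · rw [map_mul]
    exact mul_ne_zero (fun h0 => hmem h0) (fun h0 => ha₂p h0)
  · intro A _ _ hA
    rw [map_mul] at hA
    have hA₁ : IsUnit (algebraMap R A a₁) := isUnit_of_mul_isUnit_left hA
    have hA₂ : IsUnit (algebraMap R A a₂) := isUnit_of_mul_isUnit_right hA
    have hsurj : Function.Surjective
        (Fintype.linearCombination A (fun i => (1 : A) ⊗ₜ[R] v i)) := by
      rw [← LinearMap.range_eq_top, Fintype.range_linearCombination,
        span_one_tmul_eq_top_iff']
      exact subsingleton_tensor_of_isUnit_of_smul_eq_zero' A hA₂ hkill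
    rcases subsingleton_or_nontrivial A with hA0 | hA0
    · have : Subsingleton (Fin n → A) := inferInstance
      have : Subsingleton (A ⊗[R] P) := Module.subsingleton A _
      exact ⟨fun x y _ => Subsingleton.elim x y, hsurj⟩
    · refine Module.bijective_of_surjective_of_rankAtStalk_eq hsurj (fun m _ => ?_)
      rw [Module.rankAtStalk_baseChange, Module.rankAtStalk_eq_finrank_of_free]
      have hq : (PrimeSpectrum.comap (algebraMap R A) ⟨m, inferInstance⟩) ∈
          (PrimeSpectrum.basicOpen a₁ : Set (PrimeSpectrum R)) := by
        intro hq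
        have hmem' : algebraMap R A a₁ ∈ m := hq
        exact (Ideal.IsMaximal.isPrime inferInstance : m.IsPrime).ne_top
          (Ideal.eq_top_of_isUnit_mem _ hmem' hA₁)
      have := hsub hq
      rw [show Module.rankAtStalk P (PrimeSpectrum.comap (algebraMap R A) ⟨m, inferInstance⟩) = n
        from this]
      simp

/-- **Fibrewise basis ⇒ basis.**  `P` finite projective over `R`, `v : Fin n → P`.  If for
every maximal ideal `m` of `R` there is a field-valued point with kernel `m` at which `1 ⊗ v` is
a basis of the fibre, then `v` is a basis of `P`. -/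
theorem bijective_of_forall_maximal.{w} {P : Type*} [AddCommGroup P] [Module R P]
    [Module.Finite R P] [Module.Projective R P] {n : ℕ} (v : Fin n → P)
    (h : ∀ (m : Ideal R) [m.IsMaximal], ∃ (K : Type w) (_ : Field K) (_ : Algebra R K),
      RingHom.ker (algebraMap R K) = m ∧
        Function.Bijective (Fintype.linearCombination K (fun i => (1 : K) ⊗ₜ[R] v i))) :
    Function.Bijective (Fintype.linearCombination R v) := by
  -- spanning
  have hsupp : Module.support R (P ⧸ Submodule.span R (Set.range v)) = ∅ := by
    rw [Set.eq_empty_iff_forall_notMem]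
    intro p hp
    obtain ⟨m, hm, hpm⟩ := Ideal.exists_le_maximal p.asIdeal p.isPrime.ne_top
    have hm' : (⟨m, hm.isPrime⟩ : PrimeSpectrum R) ∈
        Module.support R (P ⧸ Submodule.span R (Set.range v)) :=
      Module.mem_support_mono (show p ≤ ⟨m, hm.isPrime⟩ from hpm) hp
    obtain ⟨K, _, _, hker, hbij⟩ := h m
    have hspanK : Submodule.span K (Set.range fun i => (1 : K) ⊗ₜ[R] v i) = ⊤ := by
      rw [← Fintype.range_linearCombination, LinearMap.range_eq_top]
      exact hbij.2
    have hsub0 := (span_one_tmul_eq_top_iff' v K).1 hspanK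
    have hpt : fieldPt R K = ⟨m, hm.isPrime⟩ := PrimeSpectrum.ext hker
    rw [← hpt, ← nontrivial_field_tensor_iff'] at hm'
    exact not_nontrivial_iff_subsingleton.2 hsub0 hm'
  have hsurj : Function.Surjective (Fintype.linearCombination R v) := by
    rw [← LinearMap.range_eq_top, Fintype.range_linearCombination]
    rw [Module.support_eq_empty_iff] at hsupp
    exact Submodule.Quotient.subsingleton_iff.1 hsupp
  refine Module.bijective_of_surjective_of_rankAtStalk_eq hsurj (fun m hm => ?_)
  have : Nontrivial R := ⟨⟨0, 1, fun h01 => hm.ne_top ((Ideal.eq_top_iff_one m).2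
    (h01 ▸ m.zero_mem))⟩⟩
  obtain ⟨K, _, _, hker, hbij⟩ := h m
  have hpt : fieldPt R K = ⟨m, hm.isPrime⟩ := PrimeSpectrum.ext hker
  rw [Module.rankAtStalk_eq_finrank_of_free, ← hpt, ← finrank_field_tensor_eq_rankAtStalk',
    finrank_of_bijective_linearCombination v K hbij]
  simp

end Mod

end Fermat.Agent.S25.ATLAS.DIV.H4190
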