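/-
S25 package ATLAS, sub-package DIV, part C (stages 3 and 4), helper4190.
Mathlib-only: framed ideals of `R ⊗[k] A` (= points of the Hilbert chart `S_b`).
-/
import Fermat.Agent.S25.ATLAS.DIV.H4190.ModBasis

set_option autoImplicit false
set_option linter.style.haveILetI false

universe u

namespace Fermat.Agent.S25.ATLAS.DIV.H4190

open TensorProduct

section Framed

variable {k : Type u} [CommRing k] {A : Type u} [CommRing A] [Algebra k A] {n : ℕ}

/-- The frame map `Rⁿ → (R ⊗ A) ⧸ I`, `e_j ↦ [1 ⊗ b_j]`. -/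
noncomputable def frame (b : Fin n → A) (R : Type u) [CommRing R] [Algebra k R]
    (I : Ideal (R ⊗[k] A)) : (Fin n → R) →ₗ[R] (R ⊗[k] A) ⧸ I :=
  Fintype.linearCombination R (fun j => Ideal.Quotient.mk I ((1 : R) ⊗ₜ[k] b j))

/-- `I` is framed by `b`: the classes of `1 ⊗ b_j` form an `R`-basis of `(R ⊗ A) ⧸ I`. -/
def Framed (b : Fin n → A) (R : Type u) [CommRing R] [Algebra k R] (I : Ideal (R ⊗[k] A)) :
    Prop :=
  Function.Bijective (frame b R I)

section BC

variable (R R' : Type u) [CommRing R] [Algebra k R] [CommRing R'] [Algebra k R'] [Algebra R R']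
  [IsScalarTower k R R']

/-- The base change map `R ⊗ A → R' ⊗ A`. -/
noncomputable abbrev tmap : R ⊗[k] A →ₐ[k] R' ⊗[k] A :=
  Algebra.TensorProduct.map (IsScalarTower.toAlgHom k R R') (AlgHom.id k A)

theorem map_includeRight_map_cancel (I : Ideal (R ⊗[k] A)) :
    I.map (tmap (A := A) R R').toRingHom =
      (I.map (Algebra.TensorProduct.includeRight (R := R) (A := R') (B := R ⊗[k] A))).map
        (Algebra.TensorProduct.cancelBaseChange k R R' R' A : R' ⊗[R] (R ⊗[k] A) →+* R' ⊗[k] A) := by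
  have h : I.map (Algebra.TensorProduct.includeRight (R := R) (A := R') (B := R ⊗[k] A)) =
      I.map ((Algebra.TensorProduct.includeRight (R := R) (A := R') (B := R ⊗[k] A) :
        R ⊗[k] A →ₐ[R] R' ⊗[R] (R ⊗[k] A)) : R ⊗[k] A →+* R' ⊗[R] (R ⊗[k] A)) := rfl
  rw [h, Ideal.map_map]
  congr 1
  apply RingHom.ext
  intro x
  induction x using TensorProduct.induction_on with
  | zero => simp
  | tmul r a =>
    simp [Algebra.smul_def]
  | add x y hx hy => simp only [map_add, hx, hy]

/-- Base change of the quotient by an ideal. -/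
noncomputable def quotBC (I : Ideal (R ⊗[k] A)) :
    R' ⊗[R] ((R ⊗[k] A) ⧸ I) ≃ₐ[R'] (R' ⊗[k] A) ⧸ I.map (tmap (A := A) R R').toRingHom :=
  (Algebra.TensorProduct.tensorQuotientEquiv (R := R) R' (R ⊗[k] A) R' I).trans
    (Ideal.quotientEquivAlg _ _ (Algebra.TensorProduct.cancelBaseChange k R R' R' A)
      (map_includeRight_map_cancel R R' I))

@[simp]
theorem quotBC_tmul_mk (I : Ideal (R ⊗[k] A)) (r' : R') (x : R ⊗[k] A) :
    quotBC R R' I (r' ⊗ₜ[R] Ideal.Quotient.mk I x) =
      Ideal.Quotient.mk _ (Algebra.TensorProduct.cancelBaseChange k R R' R' A (r' ⊗ₜ[R] x)) :=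
  rfl

theorem quotBC_one_tmul_mk (I : Ideal (R ⊗[k] A)) (a : A) :
    quotBC R R' I ((1 : R') ⊗ₜ[R] Ideal.Quotient.mk I ((1 : R) ⊗ₜ[k] a)) =
      Ideal.Quotient.mk _ ((1 : R') ⊗ₜ[k] a) := by
  rw [quotBC_tmul_mk, Algebra.TensorProduct.cancelBaseChange_tmul, one_smul]

variable {R R'} (b : Fin n → A)

/-- The frame over `R'` of the extended ideal is the base change of the frame over `R`. -/
theorem frame_map_apply (I : Ideal (R ⊗[k] A)) (c : Fin n → R') :
    frame b R' (I.map (tmap (A := A) R R').toRingHom) c =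
      quotBC R R' I (Fintype.linearCombination R'
        (fun j => (1 : R') ⊗ₜ[R] Ideal.Quotient.mk I ((1 : R) ⊗ₜ[k] b j)) c) := by
  rw [frame, Fintype.linearCombination_apply, Fintype.linearCombination_apply, map_sum]
  refine Finset.sum_congr rfl (fun j _ => ?_)
  rw [map_smul, quotBC_one_tmul_mk]

theorem framed_map_iff' (I : Ideal (R ⊗[k] A)) :
    Framed b R' (I.map (tmap (A := A) R R').toRingHom) ↔
      Function.Bijective (Fintype.linearCombination R'
        (fun j => (1 : R') ⊗ₜ[R] Ideal.Quotient.mk I ((1 : R) ⊗ₜ[k] b j))) := by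
  have h : ⇑(frame b R' (I.map (tmap (A := A) R R').toRingHom)) =
      ⇑(quotBC R R' I) ∘ ⇑(Fintype.linearCombination R'
        (fun j => (1 : R') ⊗ₜ[R] Ideal.Quotient.mk I ((1 : R) ⊗ₜ[k] b j))) := by
    funext c
    exact frame_map_apply b I c
  rw [Framed, h]
  exact Function.Bijective.of_comp_iff' (quotBC R R' I).bijective _

end BC

section Main

variable {b : Fin n → A} {R : Type u} [CommRing R] [Algebra k R] {I : Ideal (R ⊗[k] A)}

/-- **(bc)** A framed ideal stays framed after base change. -/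
theorem Framed.map (h : Framed b R I) {R' : Type u} [CommRing R'] [Algebra k R']
    (φ : R →ₐ[k] R') :
    Framed b R' (I.map (Algebra.TensorProduct.map φ (AlgHom.id k A)).toRingHom) := by
  letI : Algebra R R' := φ.toRingHom.toAlgebra
  haveI : IsScalarTower k R R' := IsScalarTower.of_algebraMap_eq (fun x => (φ.commutes x).symm)
  change Framed b R' (I.map (tmap (A := A) R R').toRingHom)
  rw [framed_map_iff']
  exact bijective_linearCombination_one_tmul _ h R'

/-- **(lg)** If `(R ⊗ A) ⧸ I` is finite projective over `R` and the extended ideal is framed by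
`b` at every geometric point, then `I` is framed by `b`. -/
theorem Framed.of_fibres (hfin : Module.Finite R ((R ⊗[k] A) ⧸ I))
    (hproj : Module.Projective R ((R ⊗[k] A) ⧸ I))
    (h : ∀ (κ : Type u) [Field κ] [IsAlgClosed κ] [Algebra k κ] (φ : R →ₐ[k] κ),
      Framed b κ (I.map (Algebra.TensorProduct.map φ (AlgHom.id k A)).toRingHom)) :
    Framed b R I := by
  apply bijective_of_forall_maximal.{u}
  intro m hm
  letI : Field (R ⧸ m) := Ideal.Quotient.field m
  refine ⟨AlgebraicClosure (R ⧸ m), inferInstance, inferInstance, ?_, ?_⟩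
  · rw [IsScalarTower.algebraMap_eq R (R ⧸ m) (AlgebraicClosure (R ⧸ m)),
      RingHom.ker_comp_of_injective _ (FaithfulSMul.algebraMap_injective _ _)]
    exact Ideal.mk_ker
  · have h1 := h (AlgebraicClosure (R ⧸ m))
      (IsScalarTower.toAlgHom k R (AlgebraicClosure (R ⧸ m)))
    exact (framed_map_iff' b I).1 h1

/-- **(spread)** If `(R ⊗ A) ⧸ I` is finite projective over `R` and the extended ideal is framed
by `b` at one field-valued point `φ₀`, then there is `a ∈ R` with `φ₀ a ≠ 0` such that the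
extended ideal is framed by `b` over every `R'` in which `a` becomes a unit. -/
theorem Framed.spread (hfin : Module.Finite R ((R ⊗[k] A) ⧸ I))
    (hproj : Module.Projective R ((R ⊗[k] A) ⧸ I))
    (κ : Type u) [Field κ] [Algebra k κ] (φ₀ : R →ₐ[k] κ)
    (h₀ : Framed b κ (I.map (Algebra.TensorProduct.map φ₀ (AlgHom.id k A)).toRingHom)) :
    ∃ a : R, φ₀ a ≠ 0 ∧ ∀ (R' : Type u) [CommRing R'] [Algebra k R'] (φ : R →ₐ[k] R'),
      IsUnit (φ a) →
        Framed b R' (I.map (Algebra.TensorProduct.map φ (AlgHom.id k A)).toRingHom) := by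
  letI : Algebra R κ := φ₀.toRingHom.toAlgebra
  haveI : IsScalarTower k R κ := IsScalarTower.of_algebraMap_eq (fun x => (φ₀.commutes x).symm)
  have h₀' : Framed b κ (I.map (tmap (A := A) R κ).toRingHom) := h₀
  rw [framed_map_iff'] at h₀'
  obtain ⟨a, ha, hspread⟩ := exists_spread_basis
    (fun j => Ideal.Quotient.mk I ((1 : R) ⊗ₜ[k] b j)) κ h₀'
  refine ⟨a, ha, ?_⟩
  intro R' _ _ φ hφ
  letI : Algebra R R' := φ.toRingHom.toAlgebra
  haveI : IsScalarTower k R R' := IsScalarTower.of_algebraMap_eq (fun x => (φ.commutes x).symm)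
  change Framed b R' (I.map (tmap (A := A) R R').toRingHom)
  rw [framed_map_iff']
  exact hspread R' hφ

end Main

/-- **Choice of `b`.**  Over a field `κ`, an ideal `I` of `κ ⊗ A` whose quotient has dimension
`n` is framed by some `b : Fin n → A`. -/
theorem exists_framed (κ : Type u) [Field κ] [Algebra k κ] (I : Ideal (κ ⊗[k] A))
    (hfin : Module.Finite κ ((κ ⊗[k] A) ⧸ I)) (hn : Module.finrank κ ((κ ⊗[k] A) ⧸ I) = n) :
    ∃ b : Fin n → A, Framed b κ I := by
  have hspan : Submodule.span κ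
      (Set.range fun a : A => Ideal.Quotient.mk I ((1 : κ) ⊗ₜ[k] a)) = ⊤ := by
    rw [eq_top_iff]
    rintro x -
    obtain ⟨y, rfl⟩ := Ideal.Quotient.mk_surjective x
    induction y using TensorProduct.induction_on with
    | zero => simp
    | tmul r a =>
      have : Ideal.Quotient.mk I (r ⊗ₜ[k] a) = r • Ideal.Quotient.mk I ((1 : κ) ⊗ₜ[k] a) := by
        change _ = Ideal.Quotient.mk I (r • ((1 : κ) ⊗ₜ[k] a))
        rw [TensorProduct.smul_tmul', smul_eq_mul, mul_one]
      rw [this]
      exact Submodule.smul_mem _ _ (Submodule.subset_span ⟨a, rfl⟩)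
    | add x y hx hy =>
      rw [map_add]
      exact Submodule.add_mem _ hx hy
  obtain ⟨b, hli, hsp⟩ := exists_fin_basis_of_span_range_eq_top'
    (fun a : A => Ideal.Quotient.mk I ((1 : κ) ⊗ₜ[k] a)) hspan hn
  exact ⟨b, (bijective_linearCombination_iff_basis _).2 ⟨hli, hsp⟩⟩

end Framed

end Fermat.Agent.S25.ATLAS.DIV.H4190
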