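/-
S25 package ATLAS, sub-package DIV, part C, stage 3 (helper4190).
Frozen vocabulary (Core + A1/Basic + Defs + AlgDefs + ATLAS/Defs) + `H4190/Framed`.

* `ord B s`            : the order ideal `{ψ s | ψ ∈ Dual}` of an element of a module
                         (same definition as helper1705's `ordIdeal`);
* `ord_map_eq`         : base change of order ideals along a semilinear map with the universal
                         property, source finite projective;
* `ord₁_baseChangeData`, `ord₂_baseChangeData` : the same for `BaseChangeData (𝒞.chartHom φ)`;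
* `C3 𝒞 b M s`         : "the classes of `1 ⊗ b_j` form an `R`-basis of `B₁ ⧸ ord₁(s)`";
* `C3.of_baseChangeData` (bc), `C3.of_fibres` (lg), `C3.spread` (spread), `exists_C3` (choice of
  `b` over a field).
-/
import Fermat.Agent.S25.ATLAS.Defs
import Fermat.Agent.S25.ATLAS.DIV.H4190.Framed

set_option autoImplicit false
set_option linter.style.haveILetI false

universe u

namespace Fermat.Agent.S25.ATLAS.DIV.H4190

open TensorProduct
open Fermat.Agent.S25 Fermat.Agent.S25.GluedModule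

section Ord

variable {B : Type*} [CommRing B] {L : Type*} [AddCommGroup L] [Module B L]

/-- The order ideal of `s ∈ L`: all values `ψ s`, `ψ ∈ Dual B L`. -/
def ord (B : Type*) [CommRing B] {L : Type*} [AddCommGroup L] [Module B L] (s : L) : Ideal B :=
  LinearMap.range (Module.Dual.eval B L s)

theorem mem_ord {s : L} {a : B} : a ∈ ord B s ↔ ∃ ψ : Module.Dual B L, ψ s = a :=
  Iff.rfl

theorem dual_apply_mem_ord (ψ : Module.Dual B L) (s : L) : ψ s ∈ ord B s := ⟨ψ, rfl⟩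

/-- The order ideal is invariant under linear equivalences. -/
theorem ord_equiv {L' : Type*} [AddCommGroup L'] [Module B L'] (e : L ≃ₗ[B] L') (s : L) :
    ord B (e s) = ord B s := by
  ext a
  constructor
  · rintro ⟨ψ, rfl⟩
    exact ⟨ψ ∘ₗ e.toLinearMap, rfl⟩
  · rintro ⟨ψ, rfl⟩
    exact ⟨ψ ∘ₗ e.symm.toLinearMap, by simp [Module.Dual.eval_apply]⟩

/-- The order ideal is invariant under multiplication by a unit. -/
theorem ord_smul_of_isUnit {c : B} (hc : IsUnit c) (s : L) : ord B (c • s) = ord B s := by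
  obtain ⟨u, rfl⟩ := hc
  ext a
  constructor
  · rintro ⟨ψ, rfl⟩
    exact ⟨(u : B) • ψ, by simp [Module.Dual.eval_apply]⟩
  · rintro ⟨ψ, rfl⟩
    refine ⟨((u⁻¹ : Bˣ) : B) • ψ, ?_⟩
    simp [Module.Dual.eval_apply, ← mul_assoc]

variable {B' : Type*} [CommRing B'] {L' : Type*} [AddCommGroup L'] [Module B' L']

/-- Semilinear maps can only enlarge... : for a finite projective source, the order ideal of
`j s` is contained in the extension of the order ideal of `s`. -/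
theorem ord_le_map [Module.Finite B L] [Module.Projective B L] (ψ : B →+* B') (j : L →+ L')
    (hj : ∀ (b : B) (l : L), j (b • l) = ψ b • j l) (s : L) :
    ord B' (j s) ≤ (ord B s).map ψ := by
  obtain ⟨n, f, g, -, -, hfg⟩ := Module.Finite.exists_comp_eq_id_of_projective B L
  rintro _ ⟨χ, rfl⟩
  have hs : s = ∑ i, g s i • f (fun j => if i = j then 1 else 0) := by
    have h1 : f (g s) = s := LinearMap.congr_fun hfg s
    rw [← LinearMap.pi_apply_eq_sum_univ f (g s), h1]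
  rw [Module.Dual.eval_apply]
  have hmem : χ (j (∑ i, g s i • f (fun j => if i = j then 1 else 0))) ∈ (ord B s).map ψ := by
    rw [map_sum, map_sum]
    refine Ideal.sum_mem _ (fun i _ => ?_)
    rw [hj, map_smul, smul_eq_mul]
    exact Ideal.mul_mem_right _ _
      (Ideal.mem_map_of_mem ψ ⟨(LinearMap.proj i : (Fin n → B) →ₗ[B] B) ∘ₗ g, rfl⟩)
  rwa [← hs] at hmem

/-- If every functional on `L` extends along `j`, the extension of the order ideal of `s` is
contained in the order ideal of `j s`. -/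
theorem map_ord_le (ψ : B →+* B') (j : L →+ L')
    (hex : ∀ ψ₀ : Module.Dual B L, ∃ h' : Module.Dual B' L', ∀ l, h' (j l) = ψ (ψ₀ l)) (s : L) :
    (ord B s).map ψ ≤ ord B' (j s) := by
  rw [Ideal.map_le_iff_le_comap]
  rintro _ ⟨ψ₀, rfl⟩
  obtain ⟨h', hh'⟩ := hex ψ₀
  exact ⟨h', by rw [Module.Dual.eval_apply, hh', Module.Dual.eval_apply]⟩

/-- **Base change of order ideals.** -/
theorem ord_map_eq [Module.Finite B L] [Module.Projective B L] (ψ : B →+* B') (j : L →+ L')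
    (hj : ∀ (b : B) (l : L), j (b • l) = ψ b • j l)
    (hex : ∀ ψ₀ : Module.Dual B L, ∃ h' : Module.Dual B' L', ∀ l, h' (j l) = ψ (ψ₀ l)) (s : L) :
    ord B' (j s) = (ord B s).map ψ :=
  le_antisymm (ord_le_map ψ j hj s) (map_ord_le ψ j hex s)

end Ord

section Chart

variable {k : Type u} [Field k] (𝒞 : CurveData k)
variable {R R' : Type u} [CommRing R] [Algebra k R] [CommRing R'] [Algebra k R']

/-- Base change of the order ideal on the first chart. -/
theorem ord₁_baseChangeData (φ : R →ₐ[k] R') {M : GluedModule (𝒞.chart R)}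
    {M' : GluedModule (𝒞.chart R')} (d : BaseChangeData (𝒞.chartHom φ) M M')
    [Module.Finite (𝒞.chart R).B₁ M.N₁] [Module.Projective (𝒞.chart R).B₁ M.N₁] (s : M.N₁) :
    ord (𝒞.chart R').B₁ (d.j₁ s) = (ord (𝒞.chart R).B₁ s).map (𝒞.chartHom φ).ψ₁ := by
  refine ord_map_eq (𝒞.chartHom φ).ψ₁ d.j₁ d.j₁_smul (fun ψ₀ => ?_) s
  obtain ⟨h', hh', -⟩ := d.univ₁ (𝒞.chart R').B₁
    (((𝒞.chartHom φ).ψ₁ : (𝒞.chart R).B₁ →+ (𝒞.chart R').B₁).comp ψ₀.toAddMonoidHom)
    (fun b n => by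
      change (𝒞.chartHom φ).ψ₁ (ψ₀ (b • n)) = (𝒞.chartHom φ).ψ₁ b • (𝒞.chartHom φ).ψ₁ (ψ₀ n)
      rw [map_smul, smul_eq_mul, map_mul, smul_eq_mul])
  exact ⟨h', hh'⟩

/-- Base change of the order ideal on the second chart. -/
theorem ord₂_baseChangeData (φ : R →ₐ[k] R') {M : GluedModule (𝒞.chart R)}
    {M' : GluedModule (𝒞.chart R')} (d : BaseChangeData (𝒞.chartHom φ) M M')
    [Module.Finite (𝒞.chart R).B₂ M.N₂] [Module.Projective (𝒞.chart R).B₂ M.N₂] (s : M.N₂) :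
    ord (𝒞.chart R').B₂ (d.j₂ s) = (ord (𝒞.chart R).B₂ s).map (𝒞.chartHom φ).ψ₂ := by
  refine ord_map_eq (𝒞.chartHom φ).ψ₂ d.j₂ d.j₂_smul (fun ψ₀ => ?_) s
  obtain ⟨h', hh', -⟩ := d.univ₂ (𝒞.chart R').B₂
    (((𝒞.chartHom φ).ψ₂ : (𝒞.chart R).B₂ →+ (𝒞.chart R').B₂).comp ψ₀.toAddMonoidHom)
    (fun b n => by
      change (𝒞.chartHom φ).ψ₂ (ψ₀ (b • n)) = (𝒞.chartHom φ).ψ₂ b • (𝒞.chartHom φ).ψ₂ (ψ₀ n)
      rw [map_smul, smul_eq_mul, map_mul, smul_eq_mul])
  exact ⟨h', hh'⟩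

variable {n : ℕ} (b : Fin n → 𝒞.A₁)

/-- Condition C3 of the divisor charts: the classes of `1 ⊗ b_j` form an `R`-basis of the
coordinate ring `B₁ ⧸ ord₁(s)` of the zero scheme of `s` (first chart). -/
def C3 (M : GluedModule (𝒞.chart R)) (s : M.N₁) : Prop :=
  Framed (k := k) (A := 𝒞.A₁) b R (ord (𝒞.chart R).B₁ s)

variable {𝒞 b}

/-- **(bc)** C3 is stable under base change. -/
theorem C3.of_baseChangeData {M : GluedModule (𝒞.chart R)} {s : M.N₁}
    [Module.Finite (𝒞.chart R).B₁ M.N₁] [Module.Projective (𝒞.chart R).B₁ M.N₁]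
    (h : C3 𝒞 b M s) (φ : R →ₐ[k] R') {M' : GluedModule (𝒞.chart R')}
    (d : BaseChangeData (𝒞.chartHom φ) M M') : C3 𝒞 b M' (d.j₁ s) := by
  unfold C3
  rw [ord₁_baseChangeData 𝒞 φ d s]
  exact Framed.map h φ

/-- **(lg)** If `B₁ ⧸ ord₁(s)` is finite projective over `R` (which is (Flat)) and C3 holds
for one base change of `(M, s)` at every geometric point, then C3 holds for `(M, s)`. -/
theorem C3.of_fibres {M : GluedModule (𝒞.chart R)} {s : M.N₁}
    [Module.Finite (𝒞.chart R).B₁ M.N₁] [Module.Projective (𝒞.chart R).B₁ M.N₁]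
    (hfin : Module.Finite R ((𝒞.chart R).B₁ ⧸ ord (𝒞.chart R).B₁ s))
    (hproj : Module.Projective R ((𝒞.chart R).B₁ ⧸ ord (𝒞.chart R).B₁ s))
    (h : ∀ (κ : Type u) [Field κ] [IsAlgClosed κ] [Algebra k κ] (φ : R →ₐ[k] κ),
      ∃ (M' : GluedModule (𝒞.chart κ)) (d : BaseChangeData (𝒞.chartHom φ) M M'),
        C3 𝒞 b M' (d.j₁ s)) :
    C3 𝒞 b M s := by
  unfold C3
  refine Framed.of_fibres hfin hproj (fun κ _ _ _ φ => ?_)
  obtain ⟨M', d, hd⟩ := h κ φ
  unfold C3 at hd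
  rw [ord₁_baseChangeData 𝒞 φ d s] at hd
  exact hd

/-- **(spread)** If `B₁ ⧸ ord₁(s)` is finite projective over `R` and C3 holds for a base
change of `(M, s)` at one field-valued point `φ₀`, then there is `a ∈ R`, `φ₀ a ≠ 0`, such that
C3 holds for every base change of `(M, s)` along a map inverting `a`. -/
theorem C3.spread {M : GluedModule (𝒞.chart R)} {s : M.N₁}
    [Module.Finite (𝒞.chart R).B₁ M.N₁] [Module.Projective (𝒞.chart R).B₁ M.N₁]
    (hfin : Module.Finite R ((𝒞.chart R).B₁ ⧸ ord (𝒞.chart R).B₁ s))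
    (hproj : Module.Projective R ((𝒞.chart R).B₁ ⧸ ord (𝒞.chart R).B₁ s))
    (κ : Type u) [Field κ] [Algebra k κ] (φ₀ : R →ₐ[k] κ) {M₀ : GluedModule (𝒞.chart κ)}
    (d₀ : BaseChangeData (𝒞.chartHom φ₀) M M₀) (h₀ : C3 𝒞 b M₀ (d₀.j₁ s)) :
    ∃ a : R, φ₀ a ≠ 0 ∧ ∀ (R' : Type u) [CommRing R'] [Algebra k R'] (φ : R →ₐ[k] R')
      (M' : GluedModule (𝒞.chart R')) (d : BaseChangeData (𝒞.chartHom φ) M M'),
      IsUnit (φ a) → C3 𝒞 b M' (d.j₁ s) := by
  unfold C3 at h₀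
  rw [ord₁_baseChangeData 𝒞 φ₀ d₀ s] at h₀
  obtain ⟨a, ha, hspread⟩ := Framed.spread (I := ord (𝒞.chart R).B₁ s) hfin hproj κ φ₀ h₀
  refine ⟨a, ha, fun R' _ _ φ M' d hφ => ?_⟩
  unfold C3
  rw [ord₁_baseChangeData 𝒞 φ d s]
  exact hspread R' φ hφ

/-- **Choice of `b`.**  Over a field, if `B₁ ⧸ ord₁(s)` has dimension `n`, then C3 holds for
some `b : Fin n → A₁`. -/
theorem exists_C3 (κ : Type u) [Field κ] [Algebra k κ] (M : GluedModule (𝒞.chart κ)) (s : M.N₁)
    (hfin : Module.Finite κ ((𝒞.chart κ).B₁ ⧸ ord (𝒞.chart κ).B₁ s))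
    (hn : Module.finrank κ ((𝒞.chart κ).B₁ ⧸ ord (𝒞.chart κ).B₁ s) = n) :
    ∃ b : Fin n → 𝒞.A₁, C3 𝒞 b M s := by
  exact exists_framed (k := k) (A := 𝒞.A₁) κ (ord (𝒞.chart κ).B₁ s) hfin hn

end Chart

end Fermat.Agent.S25.ATLAS.DIV.H4190
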